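/-
PROJECT W (S52, the 3-5 switch), brick (T1) (helper21): THE `a_ℓ` DICTIONARY.

A `G_ℚ`-equivariant additive bijection `W[p] ≃ W'[p]` between the `p`-torsion of two integral
Weierstrass models with `Δ ≠ 0`, `W[p]` irreducible, gives `p ∣ a_ℓ(W') - a_ℓ(W)` at every common
good prime `ℓ ≠ p` (the Prelude's `apOfModel`, i.e. point counts of the reductions mod `ℓ`).

Stock: `S44/Ent/DetE.trace_rho_frob` (trace of a Frobenius lift at a good prime `ℓ ≠ p` on `E[p]` is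
`a_ℓ` mod `p`; Hasse–Weil on the points from S58 + `det = ω`), `Lib/FrobeniusExists`.

* `irreducible_of_equiv` : irreducibility is transported;
* `dvd_ap_sub_of_equiv` : the congruence, for any prime `p`;
* `dvd_ap_sub_five` : the literal shape of the last clause of S52 (`p = 5`).
-/
import Fermat.Agent.S44.Ent.DetE
import Fermat.Agent.Lib.FrobeniusExists

set_option autoImplicit false
set_option linter.unusedSectionVars false
set_option linter.style.haveILetI false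

noncomputable section

namespace Fermat.Agent.S52.ApDict

open WeierstrassCurve WeierstrassCurve.Affine Module
open scoped WeierstrassCurve.Affine
open Fermat.Agent.S58.TateE (WQ Pts)
open Fermat.Agent.S41.NonEis.Inst
open Fermat.Agent.S30.Algebra.Cyclotomic (Qbar GQ)

variable {W W' : WeierstrassCurve ℤ} {p : ℕ} [Fact p.Prime]

/-- an additive bijection `W[p] ≃ W'[p]` as a `ZMod p`-linear equivalence. -/
def linEquiv (φ : Vp W p ≃+ Vp W' p) : Vp W p ≃ₗ[ZMod p] Vp W' p :=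
  LinearEquiv.ofBijective (φ.toAddMonoidHom.toZModLinearMap p) φ.bijective

@[simp] theorem linEquiv_apply (φ : Vp W p ≃+ Vp W' p) (x : Vp W p) : linEquiv φ x = φ x := rfl

/-- the equivariance, as a conjugation in `End`. -/
theorem rho_eq_conj (φ : Vp W p ≃+ Vp W' p) (hφ : ∀ (σ : GQ) (x : Vp W p), φ (σ • x) = σ • φ x)
    (σ : GQ) : rho W' p σ = (linEquiv φ).conj (rho W p σ) := by
  ext y
  obtain ⟨x, rfl⟩ := (linEquiv φ).surjective y
  rw [LinearEquiv.conj_apply_apply, LinearEquiv.symm_apply_apply, rho_apply, rho_apply,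
    linEquiv_apply, linEquiv_apply, hφ]

/-- the traces agree. -/
theorem trace_rho_eq (φ : Vp W p ≃+ Vp W' p) (hφ : ∀ (σ : GQ) (x : Vp W p), φ (σ • x) = σ • φ x)
    (σ : GQ) :
    LinearMap.trace (ZMod p) (Vp W' p) (rho W' p σ) = LinearMap.trace (ZMod p) (Vp W p) (rho W p σ) := by
  rw [rho_eq_conj φ hφ σ, LinearMap.trace_conj']

/-- **Irreducibility is transported** along an equivariant additive bijection. -/
theorem irreducible_of_equiv (φ : Vp W p ≃+ Vp W' p)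
    (hφ : ∀ (σ : GQ) (x : Vp W p), φ (σ • x) = σ • φ x)
    (hirr : Point.GaloisRepIsIrreducible (K := Qbar) ℚ (WQ W) p) :
    Point.GaloisRepIsIrreducible (K := Qbar) ℚ (WQ W') p := by
  obtain ⟨hnt, hN⟩ := hirr
  refine ⟨?_, fun N' hN' => ?_⟩
  · haveI := hnt
    exact φ.injective.nontrivial
  · have hst : Point.IsGaloisStable ℚ (N'.comap (linEquiv φ : Vp W p →ₗ[ZMod p] Vp W' p)) := by
      intro σ x hx
      rw [Submodule.mem_comap] at hx ⊢
      change linEquiv φ (σ • x) ∈ N'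
      rw [linEquiv_apply, hφ]
      exact hN' σ _ hx
    rcases hN _ hst with h | h
    · left
      rw [eq_bot_iff]
      intro y hy
      obtain ⟨x, rfl⟩ := (linEquiv φ).surjective y
      have hx : x ∈ N'.comap (linEquiv φ : Vp W p →ₗ[ZMod p] Vp W' p) := hy
      rw [h, Submodule.mem_bot] at hx
      rw [hx, map_zero]
      exact Submodule.zero_mem _
    · right
      rw [eq_top_iff]
      intro y _
      obtain ⟨x, rfl⟩ := (linEquiv φ).surjective y
      have hx : x ∈ N'.comap (linEquiv φ : Vp W p →ₗ[ZMod p] Vp W' p) := by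
        rw [h]; exact Submodule.mem_top
      exact hx

/-- **(T1) The `a_ℓ` dictionary**: a `G_ℚ`-equivariant additive bijection `W[p] ≃ W'[p]`, `W[p]`
irreducible, gives `p ∣ a_ℓ(W') - a_ℓ(W)` at every common good prime `ℓ ≠ p`. -/
theorem dvd_ap_sub_of_equiv (hΔ : W.Δ ≠ 0) (hΔ' : W'.Δ ≠ 0)
    (hirr : Point.GaloisRepIsIrreducible (K := Qbar) ℚ (WQ W) p)
    (φ : Vp W p ≃+ Vp W' p) (hφ : ∀ (σ : GQ) (x : Vp W p), φ (σ • x) = σ • φ x)
    {ℓ : ℕ} (hℓ : ℓ.Prime) (hgood : W.IsGoodPrimeFor ℓ) (hgood' : W'.IsGoodPrimeFor ℓ)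
    (hℓp : ℓ ≠ p) : (p : ℤ) ∣ W'.apOfModel ℓ - W.apOfModel ℓ := by
  obtain ⟨A, τ, hA, hτ⟩ :=
    Fermat.Agent.Lib.FrobeniusExists.exists_valuationSubring_isFrobeniusAt ℓ hℓ
  have hirr' := irreducible_of_equiv φ hφ hirr
  have h1 := Fermat.Agent.S44.Ent.DetE.trace_rho_frob hΔ hirr hℓ hgood hℓp A hA τ hτ
  have h2 := Fermat.Agent.S44.Ent.DetE.trace_rho_frob hΔ' hirr' hℓ hgood' hℓp A hA τ hτ
  rw [trace_rho_eq φ hφ τ, h1] at h2
  rw [← ZMod.intCast_zmod_eq_zero_iff_dvd, Int.cast_sub, h2, sub_self]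

/-- **(T1), the literal shape of the last clause of S52.** -/
theorem dvd_ap_sub_five (W W' : WeierstrassCurve ℤ) (hΔ : W.Δ ≠ 0) (hΔ' : W'.Δ ≠ 0)
    (h5 : W.ModRepIsIrreducible 5)
    (φ : Submodule.torsionBy ℤ (Pts W) ((5 : ℕ) : ℤ) ≃+ Submodule.torsionBy ℤ (Pts W') ((5 : ℕ) : ℤ))
    (hφ : ∀ (σ : GQ) (x : Submodule.torsionBy ℤ (Pts W) ((5 : ℕ) : ℤ)), φ (σ • x) = σ • φ x) :
    ∀ ℓ : ℕ, ℓ.Prime → W.IsGoodPrimeFor ℓ → W'.IsGoodPrimeFor ℓ → ℓ ≠ 5 →
      (5 : ℤ) ∣ (W'.apOfModel ℓ - W.apOfModel ℓ) := by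
  haveI : Fact (Nat.Prime 5) := ⟨by norm_num⟩
  intro ℓ hℓ hgood hgood' hℓ5
  exact_mod_cast dvd_ap_sub_of_equiv (p := 5) hΔ hΔ' h5 φ hφ hℓ hgood hgood' hℓ5

/-- the transport of irreducibility in the vocabulary of the Prelude. -/
theorem modRepIsIrreducible_of_equiv (W W' : WeierstrassCurve ℤ) (n : ℕ) [Fact n.Prime]
    (hn : W.ModRepIsIrreducible n)
    (φ : Submodule.torsionBy ℤ (Pts W) (n : ℤ) ≃+ Submodule.torsionBy ℤ (Pts W') (n : ℤ))
    (hφ : ∀ (σ : GQ) (x : Submodule.torsionBy ℤ (Pts W) (n : ℤ)), φ (σ • x) = σ • φ x) :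
    W'.ModRepIsIrreducible n :=
  irreducible_of_equiv φ hφ hn

end Fermat.Agent.S52.ApDict
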