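/-
PROJECT W (S52, the 3-5 switch), brick (T2') = KILL-1 (helper21): THE EXPLICIT FAMILY THROUGH A GIVEN
CURVE, as three polynomials in `t` over `ℤ[h, k]`, and Klein's syzygy along it.

Klein's icosahedral forms `f` (degree 12), `H` (degree 20), `T` (degree 30) in `(u, v)` satisfy
`T² + H³ = 1728 f⁵`.  For a point `P₀` put `X₀ := (-f_v(P₀), f_u(P₀))` (the Hamiltonian vector field
of `f`, equivariant under the binary icosahedral group) and restrict to the line `P₀ + t X₀`: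
the coefficients of `H(P₀ + t X₀)`, `T(P₀ + t X₀)`, `f(P₀ + t X₀) / f(P₀)` are invariants, hence
polynomials in `h = H(P₀)`, `k = T(P₀)` (computed offline by linear algebra on forms; integers).
Result, with NO reference to `P₀`:

  `Tf h k t ^ 2 + Hf h k t ^ 3 = (k ^ 2 + h ^ 3) * df h k t ^ 5`,  `Hf h k 0 = h`, `Tf h k 0 = k`,
  `df h k 0 = 1`,

i.e. the curves `E_t : y² = x³ + 3 Hf(t) x + 2 Tf(t)` have discriminant `-16·108 (k² + h³) df(t)⁵`,
a constant times a fifth power, and `E_0 : y² = x³ + 3 h x + 2 k` is the given curve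
(`h = -9 c₄`, `k = -27 c₆` for the short model `y² = x³ - 27 c₄ x - 54 c₆`).
(Numerical check offline: `a_ℓ(E_t) ≡ a_ℓ(E_0) mod 5` for all good `ℓ < 200`, three random `(h,k,t)`.)
-/
import Mathlib

set_option autoImplicit false
set_option linter.unusedVariables false

namespace Fermat.Agent.S52.KleinFamily

variable {R : Type*} [CommRing R]

def hc0 (h k : R) : R := (1 : R) * h
def hc1 (h k : R) : R := (20 : R) * k
def hc2 (h k : R) : R := (-190 : R) * h ^ 2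
def hc3 (h k : R) : R := (-1140 : R) * h * k
def hc4 (h k : R) : R := (-855 : R) * h ^ 3 + (-5700 : R) * k ^ 2
def hc5 (h k : R) : R := (15504 : R) * h ^ 2 * k
def hc6 (h k : R) : R := (-102600 : R) * h ^ 4 + (-63840 : R) * h * k ^ 2
def hc7 (h k : R) : R := (-259920 : R) * h ^ 3 * k + (-182400 : R) * k ^ 3
def hc8 (h k : R) : R := (-1000350 : R) * h ^ 5 + (-1126320 : R) * h ^ 2 * k ^ 2
def hc9 (h k : R) : R := (-7736040 : R) * h ^ 4 * k + (-7904000 : R) * h * k ^ 3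
def hc10 (h k : R) : R := (10003500 : R) * h ^ 6 + (-5619744 : R) * h ^ 3 * k ^ 2 + (-15808000 : R) * k ^ 4
def hc11 (h k : R) : R := (54685800 : R) * h ^ 5 * k + (54853760 : R) * h ^ 2 * k ^ 3
def hc12 (h k : R) : R := (-45015750 : R) * h ^ 7 + (-7202520 : R) * h ^ 4 * k ^ 2 + (37939200 : R) * h * k ^ 4
def hc13 (h k : R) : R := (-35089200 : R) * h ^ 6 * k + (23201280 : R) * h ^ 3 * k ^ 3 + (58368000 : R) * k ^ 5
def hc14 (h k : R) : R := (-207765000 : R) * h ^ 8 + (-495188640 : R) * h ^ 5 * k ^ 2 + (-287462400 : R) * h ^ 2 * k ^ 4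
def hc15 (h k : R) : R := (-415530000 : R) * h ^ 7 * k + (-882458496 : R) * h ^ 4 * k ^ 3 + (-466944000 : R) * h * k ^ 5
def hc16 (h k : R) : R := (-77911875 : R) * h ^ 9 + (-714711600 : R) * h ^ 6 * k ^ 2 + (-1220474880 : R) * h ^ 3 * k ^ 4 + (-583680000 : R) * k ^ 6
def hc17 (h k : R) : R := (353200500 : R) * h ^ 8 * k + (715080960 : R) * h ^ 5 * k ^ 3 + (361881600 : R) * h ^ 2 * k ^ 5
def hc18 (h k : R) : R := (-779118750 : R) * h ^ 10 + (-2182917600 : R) * h ^ 7 * k ^ 2 + (-2026391040 : R) * h ^ 4 * k ^ 4 + (-622592000 : R) * h * k ^ 6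
def hc19 (h k : R) : R := (-694372500 : R) * h ^ 9 * k + (-2044414080 : R) * h ^ 6 * k ^ 3 + (-2005401600 : R) * h ^ 3 * k ^ 5 + (-655360000 : R) * k ^ 7
def hc20 (h k : R) : R := (184528125 : R) * h ^ 11 + (549301500 : R) * h ^ 8 * k ^ 2 + (544997376 : R) * h ^ 5 * k ^ 4 + (180224000 : R) * h ^ 2 * k ^ 6

def tc0 (h k : R) : R := (1 : R) * k
def tc1 (h k : R) : R := (-30 : R) * h ^ 2
def tc2 (h k : R) : R := (-435 : R) * h * k
def tc3 (h k : R) : R := (1160 : R) * h ^ 3 + (-2900 : R) * k ^ 2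
def tc4 (h k : R) : R := (27405 : R) * h ^ 2 * k
def tc5 (h k : R) : R := (-95526 : R) * h ^ 4 + (46980 : R) * h * k ^ 2
def tc6 (h k : R) : R := (-437175 : R) * h ^ 3 * k + (156600 : R) * k ^ 3
def tc7 (h k : R) : R := (-1879200 : R) * h ^ 5 + (-3915000 : R) * h ^ 2 * k ^ 2
def tc8 (h k : R) : R := (-8554275 : R) * h ^ 4 * k + (-14407200 : R) * h * k ^ 3
def tc9 (h k : R) : R := (-24312150 : R) * h ^ 6 + (-42021000 : R) * h ^ 3 * k ^ 2 + (-32016000 : R) * k ^ 4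
def tc10 (h k : R) : R := (-246633255 : R) * h ^ 5 * k + (-216588240 : R) * h ^ 2 * k ^ 3
def tc11 (h k : R) : R := (162081000 : R) * h ^ 7 + (-1352475900 : R) * h ^ 4 * k ^ 2 + (-1459929600 : R) * h * k ^ 4
def tc12 (h k : R) : R := (4131714825 : R) * h ^ 6 * k + (1612005600 : R) * h ^ 3 * k ^ 3 + (-2433216000 : R) * k ^ 5
def tc13 (h k : R) : R := (-6928962750 : R) * h ^ 8 + (5235216300 : R) * h ^ 5 * k ^ 2 + (12044419200 : R) * h ^ 2 * k ^ 4
def tc14 (h k : R) : R := (-43190534475 : R) * h ^ 7 * k + (-43045111800 : R) * h ^ 4 * k ^ 3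
def tc15 (h k : R) : R := (-79575287760 : R) * h ^ 6 * k ^ 2 + (-79420170240 : R) * h ^ 3 * k ^ 4
def tc16 (h k : R) : R := (-176688550125 : R) * h ^ 8 * k + (-474659611200 : R) * h ^ 5 * k ^ 3 + (-297825638400 : R) * h ^ 2 * k ^ 5
def tc17 (h k : R) : R := (311803323750 : R) * h ^ 10 + (77604382800 : R) * h ^ 7 * k ^ 2 + (-935084908800 : R) * h ^ 4 * k ^ 4 + (-700766208000 : R) * h * k ^ 6
def tc18 (h k : R) : R := (1694131392375 : R) * h ^ 9 * k + (2776512362400 : R) * h ^ 6 * k ^ 3 + (303665356800 : R) * h ^ 3 * k ^ 5 + (-778629120000 : R) * k ^ 7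
def tc19 (h k : R) : R := (-328214025000 : R) * h ^ 11 + (3481840250100 : R) * h ^ 8 * k ^ 2 + (8100765158400 : R) * h ^ 5 * k ^ 4 + (4290656256000 : R) * h ^ 2 * k ^ 6
def tc20 (h k : R) : R := (-2874607835625 : R) * h ^ 10 * k + (-2424887357760 : R) * h ^ 7 * k ^ 3 + (3892110842880 : R) * h ^ 4 * k ^ 5 + (3442360320000 : R) * h * k ^ 7
def tc21 (h k : R) : R := (2215444668750 : R) * h ^ 12 + (3077188825500 : R) * h ^ 9 * k ^ 2 + (2709129888000 : R) * h ^ 6 * k ^ 4 + (5125838438400 : R) * h ^ 3 * k ^ 6 + (3278438400000 : R) * k ^ 8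
def tc22 (h k : R) : R := (1403114956875 : R) * h ^ 11 * k + (-1724509423800 : R) * h ^ 8 * k ^ 3 + (-7701051801600 : R) * h ^ 5 * k ^ 5 + (-4573421568000 : R) * h ^ 2 * k ^ 7
def tc23 (h k : R) : R := (7705894500000 : R) * h ^ 13 + (33414470973000 : R) * h ^ 10 * k ^ 2 + (49888700928000 : R) * h ^ 7 * k ^ 4 + (30337884979200 : R) * h ^ 4 * k ^ 6 + (6157762560000 : R) * h * k ^ 8
def tc24 (h k : R) : R := (5089101159375 : R) * h ^ 12 * k + (22687218914400 : R) * h ^ 9 * k ^ 3 + (35246094796800 : R) * h ^ 6 * k ^ 5 + (22779445248000 : R) * h ^ 3 * k ^ 7 + (5131468800000 : R) * k ^ 9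
def tc25 (h k : R) : R := (17627233668750 : R) * h ^ 14 + (70097953635000 : R) * h ^ 11 * k ^ 2 + (105528606261120 : R) * h ^ 8 * k ^ 4 + (71274600677376 : R) * h ^ 5 * k ^ 6 + (18216714240000 : R) * h ^ 2 * k ^ 8
def tc26 (h k : R) : R := (40985726371875 : R) * h ^ 13 * k + (163672057566000 : R) * h ^ 10 * k ^ 3 + (245438120632320 : R) * h ^ 7 * k ^ 5 + (163803539865600 : R) * h ^ 4 * k ^ 7 + (41051750400000 : R) * h * k ^ 9
def tc27 (h k : R) : R := (-9632368125000 : R) * h ^ 15 + (-8104032382500 : R) * h ^ 12 * k ^ 2 + (63806176396800 : R) * h ^ 9 * k ^ 4 + (143803576074240 : R) * h ^ 6 * k ^ 6 + (111934439424000 : R) * h ^ 3 * k ^ 8 + (30408704000000 : R) * k ^ 10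
def tc28 (h k : R) : R := (-21432019078125 : R) * h ^ 14 * k + (-85719228804000 : R) * h ^ 11 * k ^ 3 + (-128580522647040 : R) * h ^ 8 * k ^ 5 + (-85731449241600 : R) * h ^ 5 * k ^ 7 + (-21438136320000 : R) * h ^ 2 * k ^ 9
def tc29 (h k : R) : R := (11210083593750 : R) * h ^ 16 + (49873523512500 : R) * h ^ 13 * k ^ 2 + (87394892457600 : R) * h ^ 10 * k ^ 4 + (75042714746880 : R) * h ^ 7 * k ^ 6 + (31344427008000 : R) * h ^ 4 * k ^ 8 + (5033164800000 : R) * h * k ^ 10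
def tc30 (h k : R) : R := (4110363984375 : R) * h ^ 15 * k + (19796866155000 : R) * h ^ 12 * k ^ 3 + (38083944628224 : R) * h ^ 9 * k ^ 5 + (36574189977600 : R) * h ^ 6 * k ^ 7 + (17532190720000 : R) * h ^ 3 * k ^ 9 + (3355443200000 : R) * k ^ 11

def dc0 (h k : R) : R := (1 : R)
def dc1 (h k : R) : R := 0
def dc2 (h k : R) : R := (66 : R) * h
def dc3 (h k : R) : R := (440 : R) * k
def dc4 (h k : R) : R := (-1485 : R) * h ^ 2
def dc5 (h k : R) : R := (-3168 : R) * h * k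
def dc6 (h k : R) : R := (-5940 : R) * h ^ 3 + (-10560 : R) * k ^ 2
def dc7 (h k : R) : R := (4752 : R) * h ^ 2 * k
def dc8 (h k : R) : R := (-66825 : R) * h ^ 4 + (-63360 : R) * h * k ^ 2
def dc9 (h k : R) : R := (-142560 : R) * h ^ 3 * k + (-140800 : R) * k ^ 3
def dc10 (h k : R) : R := (133650 : R) * h ^ 5 + (133056 : R) * h ^ 2 * k ^ 2
def dc11 (h k : R) : R := (61560 : R) * h ^ 4 * k + (61440 : R) * h * k ^ 3
def dc12 (h k : R) : R := (91125 : R) * h ^ 6 + (193536 : R) * h ^ 3 * k ^ 2 + (102400 : R) * k ^ 4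

/-- `H(P₀ + t X_f(P₀))` in terms of `h = H(P₀)`, `k = T(P₀)` (Klein's icosahedral forms). -/
def Hf (h k t : R) : R :=
  hc0 h k + t * (hc1 h k + t * (hc2 h k + t * (hc3 h k + t * (hc4 h k + t * (hc5 h k + t * (hc6 h k + t * (hc7 h k + t * (hc8 h k + t * (hc9 h k + t * (hc10 h k + t * (hc11 h k + t * (hc12 h k + t * (hc13 h k + t * (hc14 h k + t * (hc15 h k + t * (hc16 h k + t * (hc17 h k + t * (hc18 h k + t * (hc19 h k + t * (hc20 h k))))))))))))))))))))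

/-- `T(P₀ + t X_f(P₀))`. -/
def Tf (h k t : R) : R :=
  tc0 h k + t * (tc1 h k + t * (tc2 h k + t * (tc3 h k + t * (tc4 h k + t * (tc5 h k + t * (tc6 h k + t * (tc7 h k + t * (tc8 h k + t * (tc9 h k + t * (tc10 h k + t * (tc11 h k + t * (tc12 h k + t * (tc13 h k + t * (tc14 h k + t * (tc15 h k + t * (tc16 h k + t * (tc17 h k + t * (tc18 h k + t * (tc19 h k + t * (tc20 h k + t * (tc21 h k + t * (tc22 h k + t * (tc23 h k + t * (tc24 h k + t * (tc25 h k + t * (tc26 h k + t * (tc27 h k + t * (tc28 h k + t * (tc29 h k + t * (tc30 h k))))))))))))))))))))))))))))))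

/-- `f(P₀ + t X_f(P₀)) / f(P₀)`. -/
def df (h k t : R) : R :=
  dc0 h k + t * (dc1 h k + t * (dc2 h k + t * (dc3 h k + t * (dc4 h k + t * (dc5 h k + t * (dc6 h k + t * (dc7 h k + t * (dc8 h k + t * (dc9 h k + t * (dc10 h k + t * (dc11 h k + t * (dc12 h k))))))))))))

theorem Hf_zero (h k : R) : Hf h k 0 = h := by simp [Hf, hc0]
theorem Tf_zero (h k : R) : Tf h k 0 = k := by simp [Tf, tc0]
theorem df_zero (h k : R) : df h k 0 = 1 := by simp [df, dc0]

set_option maxHeartbeats 0 in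
set_option maxRecDepth 100000 in
/-- **Klein's syzygy along the family.** -/
theorem syzygy (h k t : R) : Tf h k t ^ 2 + Hf h k t ^ 3 = (k ^ 2 + h ^ 3) * df h k t ^ 5 := by
  unfold Tf Hf df hc0 hc1 hc2 hc3 hc4 hc5 hc6 hc7 hc8 hc9 hc10 hc11 hc12 hc13 hc14 hc15 hc16 hc17 hc18 hc19 hc20 tc0 tc1 tc2 tc3 tc4 tc5 tc6 tc7 tc8 tc9 tc10 tc11 tc12 tc13 tc14 tc15 tc16 tc17 tc18 tc19 tc20 tc21 tc22 tc23 tc24 tc25 tc26 tc27 tc28 tc29 tc30 dc0 dc1 dc2 dc3 dc4 dc5 dc6 dc7 dc8 dc9 dc10 dc11 dc12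
  ring

end Fermat.Agent.S52.KleinFamily
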