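/-
PROJECT W (S52, the 3-5 switch): THE SEAM LITERALS OF THE TREE OF RECORD v2 (helper2, ruling W-2).

Normalisation of record: for an integral model `W`, `hOf W := -9 c₄(W)`, `kOf W := -27 c₆(W)`
(the short model `y² = x³ + 3 h x + 2 k = x³ - 27 c₄ x - 54 c₆`), and the family of record is
helper21's `KleinFamily`: `E_t : y² = x³ + 3 Hf(h,k,t) x + 2 Tf(h,k,t)`, `t : ℤ`, `E_0 = W`.

`quartic A B y = y⁴ + 18 A y² + 108 B y - 27 A²` is `27 ψ₃(y/3)` for `y² = x³ + A x + B`.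

The four seams (each is a `Prop`; the leaves prove them, `Top` consumes them):
* `ConstSeam` : (T2) two integral models whose `(h, k)` are `(Hf, Tf)(h₀, k₀, t)` have
  `G_ℚ`-equivariantly isomorphic `5`-torsion;
* `SemiSeam`  : (T4) for `t` in a suitable ideal `M ℤ` the fibre has a semistable integral model;
* `Mod3Seam`  : (T3) in every ideal `M ℤ` some fibre has a `quartic` without integer root;
* `ExitSeam`  : `quartic` without integer root gives `ρ₃` irreducible.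
-/
import Fermat.Agent.S52.ApDict
import Fermat.Agent.S52.KleinFamily

set_option autoImplicit false

namespace Fermat.Agent.S52.Seam

open WeierstrassCurve
open Fermat.Agent.S58.TateE (Pts)
open Fermat.Agent.S30.Algebra.Cyclotomic (GQ)
open Fermat.Agent.S52.KleinFamily

/-- `h = -9 c₄` of an integral model. -/
def hOf (W : WeierstrassCurve ℤ) : ℤ := -9 * W.c₄

/-- `k = -27 c₆` of an integral model. -/
def kOf (W : WeierstrassCurve ℤ) : ℤ := -27 * W.c₆

/-- `27 ψ₃(y / 3)` of `y² = x³ + A x + B`. -/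
def quartic (A B y : ℤ) : ℤ := y ^ 4 + 18 * A * y ^ 2 + 108 * B * y - 27 * A ^ 2

theorem kOf_sq_add_hOf_cube (W : WeierstrassCurve ℤ) :
    kOf W ^ 2 + hOf W ^ 3 = -(729 * 1728) * W.Δ := by
  have h := W.c_relation
  unfold kOf hOf
  linear_combination (729 : ℤ) * h

/-- the `5`-torsion of the `ℚ̄`-points of an integral model, with the Prelude's Galois action. -/
abbrev V5 (W : WeierstrassCurve ℤ) : Type := Submodule.torsionBy ℤ (Pts W) ((5 : ℕ) : ℤ)

/-- **(T2)** constancy of the `5`-torsion along the family. -/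
def ConstSeam : Prop :=
  ∀ W W' : WeierstrassCurve ℤ, W.Δ ≠ 0 → W'.Δ ≠ 0 → ∀ t : ℤ,
    hOf W' = Hf (hOf W) (kOf W) t → kOf W' = Tf (hOf W) (kOf W) t →
    ∃ φ : V5 W ≃+ V5 W', ∀ (σ : GQ) (x : V5 W), φ (σ • x) = σ • φ x

/-- **(T4)** semistable integral models of the fibres over an ideal `M ℤ`. -/
def SemiSeam : Prop :=
  ∀ W : WeierstrassCurve ℤ, W.Δ ≠ 0 → W.IsSemistableModel →
    ∃ M : ℤ, M ≠ 0 ∧ ∀ t : ℤ, M ∣ t →
      ∃ W' : WeierstrassCurve ℤ, W'.Δ ≠ 0 ∧ W'.IsSemistableModel ∧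
        hOf W' = Hf (hOf W) (kOf W) t ∧ kOf W' = Tf (hOf W) (kOf W) t

/-- **(T3)** in every ideal `M ℤ` some fibre has a `quartic` without integer root. -/
def Mod3Seam : Prop :=
  ∀ W : WeierstrassCurve ℤ, W.Δ ≠ 0 → W.IsSemistableModel → ∀ M : ℤ, M ≠ 0 →
    ∃ t : ℤ, M ∣ t ∧
      ∀ y : ℤ, quartic (3 * Hf (hOf W) (kOf W) t) (2 * Tf (hOf W) (kOf W) t) y ≠ 0

/-- **(T3, exit)** no integer root of the `quartic` gives `ρ₃` irreducible. -/
def ExitSeam : Prop :=
  ∀ W' : WeierstrassCurve ℤ, W'.Δ ≠ 0 →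
    (∀ y : ℤ, quartic (3 * hOf W') (2 * kOf W') y ≠ 0) → W'.ModRepIsIrreducible 3

end Fermat.Agent.S52.Seam
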