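/-
PROJECT W (S52), brick (T2') part 2a (helper21): KLEIN'S ICOSAHEDRAL FORMS `f, H, T`, their syzygy,
"no common zero but 0", and: every `(h, k)` with `k² + h³ ≠ 0` over an algebraically closed field of
characteristic `0` is `(H, T)(P₀)` for some point `P₀` (`exists_point`).
-/
import Mathlib

set_option autoImplicit false
set_option linter.unusedVariables false
set_option linter.unusedSectionVars false

namespace Fermat.Agent.S52.KleinForms

section Forms

variable {R : Type*} [CommRing R]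

/-- Klein's dodecahedral form `f`, degree `12`. -/
def kf (u v : R) : R := u * v * (u ^ 10 + 11 * u ^ 5 * v ^ 5 - v ^ 10)

/-- Klein's form `H`, degree `20`. -/
def kH (u v : R) : R :=
  -(u ^ 20 + v ^ 20) + 228 * (u ^ 15 * v ^ 5 - u ^ 5 * v ^ 15) - 494 * u ^ 10 * v ^ 10

/-- Klein's form `T`, degree `30`. -/
def kT (u v : R) : R :=
  (u ^ 30 + v ^ 30) + 522 * (u ^ 25 * v ^ 5 - u ^ 5 * v ^ 25)
    - 10005 * (u ^ 20 * v ^ 10 + u ^ 10 * v ^ 20)

/-- `∂f/∂u`. -/
def kfu (u v : R) : R := 11 * u ^ 10 * v + 66 * u ^ 5 * v ^ 6 - v ^ 11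

/-- `∂f/∂v`. -/
def kfv (u v : R) : R := u ^ 11 + 66 * u ^ 6 * v ^ 5 - 11 * u * v ^ 10

/-- **Klein's syzygy** `T² + H³ = 1728 f⁵`. -/
theorem klein_syzygy (u v : R) : kT u v ^ 2 + kH u v ^ 3 = 1728 * kf u v ^ 5 := by
  unfold kT kH kf; ring

/-- Euler's identity for `f`. -/
theorem euler (u v : R) : u * kfu u v + v * kfv u v = 12 * kf u v := by
  unfold kfu kfv kf; ring

/-- `H = q · g + 3125 v¹⁵ (11 u⁵ - v⁵)`, `g = u¹⁰ + 11 u⁵ v⁵ - v¹⁰`. -/
theorem kH_eq (u v : R) :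
    kH u v = (-(u ^ 10) + 239 * u ^ 5 * v ^ 5 - 3124 * v ^ 10) * (u ^ 10 + 11 * u ^ 5 * v ^ 5 - v ^ 10)
      + 3125 * v ^ 15 * (11 * u ^ 5 - v ^ 5) := by
  unfold kH; ring

theorem kH_smul (c u v : R) : kH (c * u) (c * v) = c ^ 20 * kH u v := by
  unfold kH; ring

theorem kT_smul (c u v : R) : kT (c * u) (c * v) = c ^ 30 * kT u v := by
  unfold kT; ring

end Forms

section Field

variable {K : Type*} [Field K] [CharZero K]

/-- **Klein's `f` and `H` have no common zero but `0`.** -/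
theorem eq_zero_of_kf_kH {u v : K} (hf : kf u v = 0) (hH : kH u v = 0) : u = 0 ∧ v = 0 := by
  by_cases hu : u = 0
  · subst hu
    refine ⟨rfl, ?_⟩
    have : kH (0 : K) v = -(v ^ 20) := by unfold kH; ring
    rw [this, neg_eq_zero] at hH
    exact pow_eq_zero_iff (by norm_num) |>.mp hH
  by_cases hv : v = 0
  · subst hv
    exfalso
    have : kH u (0 : K) = -(u ^ 20) := by unfold kH; ring
    rw [this, neg_eq_zero] at hH
    exact hu (pow_eq_zero_iff (by norm_num) |>.mp hH)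
  exfalso
  have hg : u ^ 10 + 11 * u ^ 5 * v ^ 5 - v ^ 10 = 0 := by
    unfold kf at hf
    rcases mul_eq_zero.mp hf with h1 | h1
    · rcases mul_eq_zero.mp h1 with h2 | h2
      · exact absurd h2 hu
      · exact absurd h2 hv
    · exact h1
  rw [kH_eq, hg, mul_zero, zero_add] at hH
  have h11 : 11 * u ^ 5 - v ^ 5 = 0 := by
    rcases mul_eq_zero.mp hH with h1 | h1
    · rcases mul_eq_zero.mp h1 with h2 | h2
      · norm_num at h2
      · exact absurd (pow_eq_zero_iff (by norm_num) |>.mp h2) hv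
    · exact h1
  have hu10 : u ^ 10 = 0 := by
    have hv5 : v ^ 5 = 11 * u ^ 5 := by linear_combination -h11
    have : u ^ 10 + 11 * u ^ 5 * v ^ 5 - v ^ 10 = u ^ 10 := by
      have hv10 : v ^ 10 = v ^ 5 * v ^ 5 := by ring
      rw [hv10, hv5]; ring
    rw [this] at hg
    exact hg
  exact hu (pow_eq_zero_iff (by norm_num) |>.mp hu10)

/-- Klein's `H` and `T` have no common zero but `0`. -/
theorem eq_zero_of_kH_kT {u v : K} (hH : kH u v = 0) (hT : kT u v = 0) : u = 0 ∧ v = 0 := by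
  have hs := klein_syzygy u v
  rw [hH, hT] at hs
  have hf : kf u v = 0 := by
    have h0 : (1728 : K) * kf u v ^ 5 = 0 := by rw [← hs]; ring
    rcases mul_eq_zero.mp h0 with h1 | h1
    · norm_num at h1
    · exact pow_eq_zero_iff (by norm_num) |>.mp h1
  exact eq_zero_of_kf_kH hf hH

end Field

section Point

open Polynomial

variable {K : Type*} [Field K] [CharZero K]

theorem kH_one_X : kH (1 : K[X]) X = -X ^ 20 + (-228 * X ^ 15 - 494 * X ^ 10 + 228 * X ^ 5 - 1) := by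
  unfold kH; ring

theorem natDegree_kH_one_X : (kH (1 : K[X]) X).natDegree = 20 := by
  rw [kH_one_X]
  compute_degree!

theorem leadingCoeff_kH_one_X : (kH (1 : K[X]) X).leadingCoeff = -1 := by
  rw [leadingCoeff, natDegree_kH_one_X, kH_one_X]
  simp [coeff_X_pow, coeff_one]

theorem kT_one_X :
    kT (1 : K[X]) X = X ^ 30 + (-522 * X ^ 25 - 10005 * X ^ 20 - 10005 * X ^ 10 + 522 * X ^ 5 + 1) := by
  unfold kT; ring

theorem natDegree_kT_one_X : (kT (1 : K[X]) X).natDegree = 30 := by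
  rw [kT_one_X]
  compute_degree!

theorem leadingCoeff_kT_one_X : (kT (1 : K[X]) X).leadingCoeff = 1 := by
  rw [leadingCoeff, natDegree_kT_one_X, kT_one_X]
  simp [coeff_X_pow, coeff_one]

theorem eval_kH_one_X (τ : K) : eval τ (kH (1 : K[X]) X) = kH 1 τ := by
  unfold kH; simp

theorem eval_kT_one_X (τ : K) : eval τ (kT (1 : K[X]) X) = kT 1 τ := by
  unfold kT; simp

variable [IsAlgClosed K]

/-- a root of `H(1, τ)`. -/
theorem exists_kH_one_eq_zero : ∃ τ : K, kH 1 τ = 0 := by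
  have hdeg : (kH (1 : K[X]) X).degree ≠ 0 := by
    rw [degree_eq_natDegree (fun h0 => by
      have := natDegree_kH_one_X (K := K); rw [h0] at this; simp at this), natDegree_kH_one_X]
    norm_num
  obtain ⟨τ, hτ⟩ := IsAlgClosed.exists_root _ hdeg
  exact ⟨τ, by rw [← eval_kH_one_X]; exact hτ⟩

/-- a root of `T(1, τ)`. -/
theorem exists_kT_one_eq_zero : ∃ τ : K, kT 1 τ = 0 := by
  have hdeg : (kT (1 : K[X]) X).degree ≠ 0 := by
    rw [degree_eq_natDegree (fun h0 => by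
      have := natDegree_kT_one_X (K := K); rw [h0] at this; simp at this), natDegree_kT_one_X]
    norm_num
  obtain ⟨τ, hτ⟩ := IsAlgClosed.exists_root _ hdeg
  exact ⟨τ, by rw [← eval_kT_one_X]; exact hτ⟩

/-- a root of `k² H(1, τ)³ - h³ T(1, τ)²` (degree `60`, leading coefficient `-(k² + h³)`). -/
theorem exists_ratio (h k : K) (hC : k ^ 2 + h ^ 3 ≠ 0) :
    ∃ τ : K, k ^ 2 * kH 1 τ ^ 3 = h ^ 3 * kT 1 τ ^ 2 := by
  set P : K[X] := C (k ^ 2) * kH (1 : K[X]) X ^ 3 - C (h ^ 3) * kT (1 : K[X]) X ^ 2 with hP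
  have hH3 : (kH (1 : K[X]) X ^ 3).coeff 60 = -1 := by
    have hnd : (kH (1 : K[X]) X ^ 3).natDegree = 60 := by
      rw [natDegree_pow, natDegree_kH_one_X]
    rw [← hnd, coeff_natDegree, leadingCoeff_pow, leadingCoeff_kH_one_X]; norm_num
  have hT2 : (kT (1 : K[X]) X ^ 2).coeff 60 = 1 := by
    have hnd : (kT (1 : K[X]) X ^ 2).natDegree = 60 := by
      rw [natDegree_pow, natDegree_kT_one_X]
    rw [← hnd, coeff_natDegree, leadingCoeff_pow, leadingCoeff_kT_one_X]; norm_num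
  have hc : P.coeff 60 = -(k ^ 2 + h ^ 3) := by
    rw [hP, coeff_sub, coeff_C_mul, coeff_C_mul, hH3, hT2]; ring
  have hdeg : P.degree ≠ 0 := by
    intro h0
    have hnd : P.natDegree = 0 := natDegree_eq_zero_iff_degree_le_zero.mpr h0.le
    have : P.coeff 60 = 0 := coeff_eq_zero_of_natDegree_lt (by rw [hnd]; norm_num)
    rw [hc, neg_eq_zero] at this
    exact hC this
  obtain ⟨τ, hτ⟩ := IsAlgClosed.exists_root P hdeg
  refine ⟨τ, ?_⟩
  rw [IsRoot.def, hP, eval_sub, eval_mul, eval_mul, eval_C, eval_C, eval_pow, eval_pow,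
    eval_kH_one_X, eval_kT_one_X, sub_eq_zero] at hτ
  exact hτ

/-- **Every `(h, k)` with `k² + h³ ≠ 0` is `(H, T)(P₀)` for some `P₀`.** -/
theorem exists_point (h k : K) (hC : k ^ 2 + h ^ 3 ≠ 0) : ∃ u v : K, kH u v = h ∧ kT u v = k := by
  by_cases hh : h = 0
  · -- `h = 0`, `k ≠ 0`
    subst hh
    have hk : k ≠ 0 := by
      rintro rfl
      exact hC (by ring)
    obtain ⟨τ, hτ⟩ := exists_kH_one_eq_zero (K := K)
    have hT : kT 1 τ ≠ 0 := fun hT0 => one_ne_zero (eq_zero_of_kH_kT hτ hT0).1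
    obtain ⟨c, hc⟩ := IsAlgClosed.exists_pow_nat_eq (k / kT 1 τ) (n := 30) (by norm_num)
    refine ⟨c * 1, c * τ, ?_, ?_⟩
    · rw [kH_smul, hτ, mul_zero]
    · rw [kT_smul, hc, div_mul_cancel₀ _ hT]
  by_cases hk : k = 0
  · -- `k = 0`, `h ≠ 0`
    subst hk
    obtain ⟨τ, hτ⟩ := exists_kT_one_eq_zero (K := K)
    have hH : kH 1 τ ≠ 0 := fun hH0 => one_ne_zero (eq_zero_of_kH_kT hH0 hτ).1
    obtain ⟨c, hc⟩ := IsAlgClosed.exists_pow_nat_eq (h / kH 1 τ) (n := 20) (by norm_num)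
    refine ⟨c * 1, c * τ, ?_, ?_⟩
    · rw [kH_smul, hc, div_mul_cancel₀ _ hH]
    · rw [kT_smul, hτ, mul_zero]
  -- `h ≠ 0`, `k ≠ 0`
  obtain ⟨τ, hτ⟩ := exists_ratio h k hC
  have hH : kH 1 τ ≠ 0 := by
    intro hH0
    rw [hH0] at hτ
    have hT0 : kT 1 τ = 0 := by
      have h0 : h ^ 3 * kT 1 τ ^ 2 = 0 := by rw [← hτ]; ring
      rcases mul_eq_zero.mp h0 with h1 | h1
      · exact absurd (pow_eq_zero_iff (by norm_num) |>.mp h1) hh
      · exact pow_eq_zero_iff (by norm_num) |>.mp h1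
    exact one_ne_zero (eq_zero_of_kH_kT hH0 hT0).1
  have hT : kT 1 τ ≠ 0 := by
    intro hT0
    rw [hT0] at hτ
    have hH0 : kH 1 τ = 0 := by
      have h0 : k ^ 2 * kH 1 τ ^ 3 = 0 := by rw [hτ]; ring
      rcases mul_eq_zero.mp h0 with h1 | h1
      · exact absurd (pow_eq_zero_iff (by norm_num) |>.mp h1) hk
      · exact pow_eq_zero_iff (by norm_num) |>.mp h1
    exact hH hH0
  -- `μ = λ¹⁰`
  set μ : K := k * kH 1 τ / (h * kT 1 τ) with hμ
  have hμ2 : μ ^ 2 = h / kH 1 τ := by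
    rw [hμ, div_pow, div_eq_div_iff (pow_ne_zero 2 (mul_ne_zero hh hT)) hH]
    linear_combination hτ
  have hμ3 : μ ^ 3 = k / kT 1 τ := by
    have : μ ^ 3 = μ * μ ^ 2 := by ring
    rw [this, hμ2, hμ]
    field_simp
  obtain ⟨c, hc⟩ := IsAlgClosed.exists_pow_nat_eq μ (n := 10) (by norm_num)
  refine ⟨c * 1, c * τ, ?_, ?_⟩
  · rw [kH_smul, show c ^ 20 = (c ^ 10) ^ 2 by ring, hc, hμ2, div_mul_cancel₀ _ hH]
  · rw [kT_smul, show c ^ 30 = (c ^ 10) ^ 3 by ring, hc, hμ3, div_mul_cancel₀ _ hT]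

end Point

end Fermat.Agent.S52.KleinForms
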