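/-
PROJECT W (S52), brick (T2') part 2b (helper21): THE SUBSTITUTION IDENTITY FOR `H` along the line
`P₀ + t X₀`, `X₀ = (-f_v(P₀), f_u(P₀))`: `Hf (H u v) (T u v) t = H (u - t f_v, v + t f_u)`.
One heavy `ring` (about 8 GB of working memory, 4 min): alone in its file, and the next heavy file
imports this one so that they are never built in parallel.
-/
import Fermat.Agent.S52.KleinFamily
import Fermat.Agent.S52.KleinForms

set_option autoImplicit false
set_option linter.unusedVariables false

namespace Fermat.Agent.S52.KleinSubstH

open Fermat.Agent.S52.KleinFamily Fermat.Agent.S52.KleinForms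

variable {R : Type*} [CommRing R]

set_option maxHeartbeats 0 in
set_option maxRecDepth 100000 in
/-- **The substitution identity for `H`** along the line `P₀ + t X₀`. -/
theorem Hf_subst (u v t : R) :
    Hf (kH u v) (kT u v) t = kH (u - t * kfv u v) (v + t * kfu u v) := by
  unfold Hf hc0 hc1 hc2 hc3 hc4 hc5 hc6 hc7 hc8 hc9 hc10 hc11 hc12 hc13 hc14 hc15 hc16 hc17 hc18
    hc19 hc20 kH kT kfu kfv
  ring

end Fermat.Agent.S52.KleinSubstH
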