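/-
PROJECT W (S52), brick (T2') part 2c (helper21): THE SUBSTITUTION IDENTITIES FOR `f` along the line
`P₀ + t X₀` and for the top coefficients (`t = ∞`), and the top coefficient of the syzygy.
(Imports `KleinSubstH` only to serialise the heavy builds.)
-/
import Fermat.Agent.S52.KleinSubstH

set_option autoImplicit false
set_option linter.unusedVariables false
set_option Elab.async false

namespace Fermat.Agent.S52.KleinSubstF

open Fermat.Agent.S52.KleinFamily Fermat.Agent.S52.KleinForms

variable {R : Type*} [CommRing R]

set_option maxHeartbeats 0 in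
set_option maxRecDepth 100000 in
/-- **The substitution identity for `f`** along the line `P₀ + t X₀`. -/
theorem df_subst (u v t : R) :
    df (kH u v) (kT u v) t * kf u v = kf (u - t * kfv u v) (v + t * kfu u v) := by
  unfold df dc0 dc1 dc2 dc3 dc4 dc5 dc6 dc7 dc8 dc9 dc10 dc11 dc12 kf kH kT kfu kfv
  ring

set_option maxHeartbeats 0 in
set_option maxRecDepth 100000 in
/-- the top coefficient of `Hf` is `H(X₀)`. -/
theorem hc20_subst (u v : R) : hc20 (kH u v) (kT u v) = kH (-(kfv u v)) (kfu u v) := by
  unfold hc20 kH kT kfu kfv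
  ring

set_option maxHeartbeats 0 in
set_option maxRecDepth 100000 in
/-- the top coefficient of `df` is `f(X₀) / f(P₀)`. -/
theorem dc12_subst (u v : R) : dc12 (kH u v) (kT u v) * kf u v = kf (-(kfv u v)) (kfu u v) := by
  unfold dc12 kf kH kT kfu kfv
  ring

/-- the top coefficient of the syzygy of `KleinFamily`. -/
theorem top_syzygy (h k : R) : tc30 h k ^ 2 + hc20 h k ^ 3 = (k ^ 2 + h ^ 3) * dc12 h k ^ 5 := by
  unfold tc30 hc20 dc12
  ring

end Fermat.Agent.S52.KleinSubstF
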