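/-
PROJECT W (S52, the 3-5 switch): THE TOP OF THE TREE OF RECORD v2 (helper2): the four seams of
`Fermat.Agent.S52.Seam` and helper21's `ApDict.dvd_ap_sub_five` give the statement S52.
-/
import Fermat.Agent.S52.Seam

set_option autoImplicit false

namespace Fermat.Agent.S52.Top

open WeierstrassCurve
open Fermat.Agent.S52.Seam Fermat.Agent.S52.KleinFamily

/-- **S52 from the four seams.** -/
theorem switch (hC : ConstSeam) (hS : SemiSeam) (hM : Mod3Seam) (hE : ExitSeam)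
    (W : WeierstrassCurve ℤ) (hΔ : W.Δ ≠ 0) (hW : W.IsSemistableModel)
    (h5 : W.ModRepIsIrreducible 5) :
    ∃ W' : WeierstrassCurve ℤ, W'.Δ ≠ 0 ∧ W'.IsSemistableModel ∧ W'.ModRepIsIrreducible 3 ∧
      ∀ ℓ : ℕ, ℓ.Prime → W.IsGoodPrimeFor ℓ → W'.IsGoodPrimeFor ℓ → ℓ ≠ 5 →
        (5 : ℤ) ∣ (W'.apOfModel ℓ - W.apOfModel ℓ) := by
  obtain ⟨M, hM0, hfib⟩ := hS W hΔ hW
  obtain ⟨t, hMt, hroot⟩ := hM W hΔ hW M hM0
  obtain ⟨W', hΔ', hW', h4, h6⟩ := hfib t hMt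
  have h3 : W'.ModRepIsIrreducible 3 := by
    refine hE W' hΔ' fun y => ?_
    rw [h4, h6]
    exact hroot y
  obtain ⟨φ, hφ⟩ := hC W W' hΔ hΔ' t h4 h6
  exact ⟨W', hΔ', hW', h3, Fermat.Agent.S52.ApDict.dvd_ap_sub_five W W' hΔ hΔ' h5 φ hφ⟩

end Fermat.Agent.S52.Top
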