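/-
PROJECT W (S52, the 3-5 switch): THE LAST WIRES (helper2).

The four seams of `Fermat.Agent.S52.Seam`, each closed by its owner, put into `Top.switch`:

* `ConstSeam` : helper12's `Const/KleinLine.constSeam_of_subst` (on helper15's `Const/Torsion/**`,
  helper27's `Const/Short`, helper12's `Const/{SpecAt, SpecialLine, Glue, ViaSpec}`);
* `SemiSeam`  : helper7's `Semi/Seam.semiSeam`;
* `Mod3Seam`  : helper9's `T3/Apply.mod3Seam` from helper13's `T3/Generic/Line.genericSeam_of_subst`;
* `ExitSeam`  : helper27's `T3/Exit.exit`;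

the two substitution identities of the family of record being helper21's `KleinSubstH.Hf_subst` and
helper11's `T3/Fibre/KleinSubstT.Tf_subst` (all the spellings of Klein's forms are the same expressions).
-/
import Fermat.Agent.S52.Top
import Fermat.Agent.S52.KleinSubstH
import Fermat.Agent.S52.T3.Fibre.KleinSubstT
import Fermat.Agent.S52.Const.KleinLine
import Fermat.Agent.S52.Semi.Seam
import Fermat.Agent.S52.T3.Apply
import Fermat.Agent.S52.T3.Generic.Line
import Fermat.Agent.S52.T3.Exit

set_option autoImplicit false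

namespace Fermat.Agent.S52.Final

open WeierstrassCurve
open Fermat.Agent.S52.Seam

/-- the two substitution identities, in the spelling of `Const/KleinLine` -/
theorem substAt_const (R : Type*) [CommRing R] : Fermat.Agent.S52.Const.KleinLine.SubstAt R :=
  fun u v t => ⟨Fermat.Agent.S52.KleinSubstH.Hf_subst u v t,
    Fermat.Agent.S52.T3.Fibre.KleinSubstT.Tf_subst u v t⟩

/-- the two substitution identities, in the spelling of `T3/Generic/Line` -/
theorem substAt_line (R : Type*) [CommRing R] : Fermat.Agent.S52.T3.Generic.Line.SubstAt R :=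
  fun u v t => ⟨Fermat.Agent.S52.KleinSubstH.Hf_subst u v t,
    Fermat.Agent.S52.T3.Fibre.KleinSubstT.Tf_subst u v t⟩

/-- **(T2)**: the fibres of the family of record have the mod-5 representation of the base. -/
theorem constSeam : ConstSeam :=
  Fermat.Agent.S52.Const.KleinLine.constSeam_of_subst (substAt_const _)

/-- **(T3), generic part**: the quartic of the family has no root in `ℚ[t]`. -/
theorem genericSeam : Fermat.Agent.S52.T3.GenericSeam :=
  Fermat.Agent.S52.T3.Generic.Line.genericSeam_of_subst (substAt_line _)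

/-- **(T3)**: a fibre, in a given class mod `M`, whose quartic has no integer root. -/
theorem mod3Seam : Mod3Seam :=
  Fermat.Agent.S52.T3.Apply.mod3Seam genericSeam

/-- **(T1)**: the fibres in a suitable class are semistable models. -/
theorem semiSeam : SemiSeam :=
  Fermat.Agent.S52.Semi.Seam.semiSeam

/-- **exit of (T3)**: no integer root of the quartic gives an irreducible mod-3 representation. -/
theorem exitSeam : ExitSeam :=
  fun W' hΔ h => Fermat.Agent.S52.T3.Exit.exit W' hΔ h

/-- **The 3-5 switch.** -/
theorem switch (W : WeierstrassCurve ℤ) (hΔ : W.Δ ≠ 0) (hW : W.IsSemistableModel)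
    (h5 : W.ModRepIsIrreducible 5) :
    ∃ W' : WeierstrassCurve ℤ, W'.Δ ≠ 0 ∧ W'.IsSemistableModel ∧ W'.ModRepIsIrreducible 3 ∧
      ∀ ℓ : ℕ, ℓ.Prime → W.IsGoodPrimeFor ℓ → W'.IsGoodPrimeFor ℓ → ℓ ≠ 5 →
        (5 : ℤ) ∣ (W'.apOfModel ℓ - W.apOfModel ℓ) :=
  Fermat.Agent.S52.Top.switch constSeam semiSeam mod3Seam exitSeam W hΔ hW h5

end Fermat.Agent.S52.Final
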